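/-
S27 / GRP leaf DEG-ADD (subtask 693, helper638): `Grp.Stmt.DegAdd k`, the exact frozen Prop of
`Fermat/Agent/S27/Grp/Spec.lean`, as an adapter of helper325's `H325.degree_of_isTensor`
(`S27/H325/TensorDegFam.lean`, on main).
-/
import Fermat.Agent.S27.Grp.Spec
import Fermat.Agent.S27.H325.TensorDegFam

set_option autoImplicit false

universe u

namespace Fermat.Agent.S27.H638

open Fermat.Agent.S25 Fermat.Agent.S27

/-- **DEG-ADD** (exact shape of `Grp.Stmt.DegAdd`): over an algebraically closed field `K ⊇ k`
the degree of gluing data on a curve chart is additive on tensor products. -/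
theorem degAdd (k : Type u) [Field k] : Grp.Stmt.DegAdd k := by
  intro _ B₀ B₁ B₀₁ _ _ _ _ _ _ _ _ _ _ x y e hC K _ _ _ G G' G'' h
  exact H325.degree_of_isTensor hC h

end Fermat.Agent.S27.H638
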